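import Fermat.Statements.S22
import Fermat.Agent.S22.Hecke
import Fermat.Agent.S22.Abstract
import Fermat.Agent.S22.Trivial
import Fermat.Agent.Lib.HeckePerm
import Fermat.Agent.Lib.EichlerGlue
import Fermat.Agent.Lib.HeckeTrivialWeights

set_option autoImplicit false
open CuspForm

namespace Fermat.Agent.S22

open Fermat.Agent.S22.PolyAct Fermat.Agent.S22.Lattice in
theorem finite_of_two_le (N : ℕ) [NeZero N] (n : ℕ) (S : Set ℕ) :
    Module.Finite ℤ (CuspForm.heckeAlgebra N ((n : ℤ) + 2) S) := by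
  refine Fermat.Agent.S22.Abstract.finite_adjoin_of_lattice (heckeGenerators N ((n : ℤ) + 2) S)
    (Lam N n) Lam_fg ?_ ?_
  · rintro t (⟨ℓ, hℓ, hℓN, -, rfl⟩ | ⟨q, hqN, hq, -, rfl⟩)
    · exact Fermat.Agent.S22.Hecke.hecke_stable _
        (Fermat.Agent.Lib.HeckePerm.isHeckeDatum_heckeT hℓ hℓN _) (fun f => rfl)
    · exact Fermat.Agent.S22.Hecke.hecke_stable _
        (Fermat.Agent.Lib.HeckePerm.isHeckeDatum_heckeU hq hqN _) (fun f => rfl)
  · intro f hf
    refine Fermat.Agent.Lib.EichlerGlue.eq_zero_of_per_eq_zero N n f (tw f) (isTower_tw f)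
      (tw_zero f) ?_
    intro γ hγ j hj
    have := hf _ (perLin_mem_Lam hγ (X_pow_mem_Ln hj))
    simpa using this

theorem result (N : ℕ) [NeZero N] (k : ℤ) (S : Set ℕ) :
    Module.Finite ℤ (CuspForm.heckeAlgebra N k S) := by
  by_cases hk : k ≤ 1
  · have hsub : Subsingleton (CuspForm (CongruenceSubgroup.Gamma0 N) k) :=
      ⟨fun f g => by
        rw [Fermat.Agent.S22.Trivial.cuspForm_eq_zero_of_weight_le_one N k hk f,
          Fermat.Agent.S22.Trivial.cuspForm_eq_zero_of_weight_le_one N k hk g]⟩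
    exact Fermat.Agent.Lib.HeckeTrivialWeights.finite_heckeAlgebra_of_subsingleton N k S hsub
  · obtain ⟨n, rfl⟩ : ∃ n : ℕ, k = (n : ℤ) + 2 := ⟨(k - 2).toNat, by omega⟩
    exact finite_of_two_le N n S

end Fermat.Agent.S22
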