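import Fermat.Statements.S05
import Fermat.Agent.S05.ValEnd
import Fermat.Agent.S05.FreyInst
import Fermat.Agent.S05.Glue

set_option autoImplicit false
open WeierstrassCurve WeierstrassCurve.Affine WeierstrassCurve.Affine.Point
open CuspForm ModularFormClass UpperHalfPlane
open FreyPackage

namespace Fermat.Agent.S05

theorem result (P : FreyPackage) {q : ℕ} (hq : q.Prime) (hq2 : q ≠ 2) (hqp : q ≠ P.p) : P.GaloisRepUnramifiedAt q := by
  apply FreyInst.unramified_of
  intro A hA σ hσ T hT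
  obtain ⟨e, w, he, hβ, hγ, hdisc, hγ0, hcase⟩ := frey_case P hq hq2 A hA
  have h2K : (2 : AlgebraicClosure ℚ) ≠ 0 := two_ne_zero
  have hv2 : A.valuation (2 : AlgebraicClosure ℚ) = 1 := by
    have := (val_intCast_eq_one_iff A hq hA 2).mpr (by
      intro h
      have h1 : (q : ℤ) ∣ ((2 : ℕ) : ℤ) := by exact_mod_cast h
      rw [Int.natCast_dvd_natCast] at h1
      exact hq2 ((Nat.prime_dvd_prime_iff_eq hq Nat.prime_two).mp h1))
    simpa using this
  have hvp : A.valuation ((P.p : ℕ) : AlgebraicClosure ℚ) = 1 := by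
    have := (val_intCast_eq_one_iff A hq hA (P.p : ℤ)).mpr (by
      intro h
      rw [Int.natCast_dvd_natCast] at h
      exact hqp ((Nat.prime_dvd_prime_iff_eq hq P.pp).mp h))
    simpa using this
  have hp2 : P.p ≠ 2 := by have := P.hp5; omega
  have hγ0' : (FreyInst.kummer (K := AlgebraicClosure ℚ) P h2K e he).γ ≠ 0 := by
    rw [FreyInst.kummer_γ]; exact (map_ne_zero _).mpr hγ0
  exact kummer_fixed_aux (FreyInst.kummer (K := AlgebraicClosure ℚ) P h2K e he)
    A.valuation (FreyKummer.galAddHom σ) (σ : AlgebraicClosure ℚ →+* AlgebraicClosure ℚ)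
    (fun Q _ => FreyInst.kummer_x_smul P h2K e he σ Q)
    (fun Q _ => FreyInst.kummer_y_smul P h2K e he σ Q)
    (fun Q hQ => (PointAlg.smul_ne_zero_iff σ Q).mpr hQ)
    (fun a ha => inertia_sub_lt A σ hσ a ha)
    hv2 P.p P.pp hp2 hvp
    (by rw [FreyInst.kummer_β]; exact hβ)
    (by rw [FreyInst.kummer_γ]; exact hγ)
    (by rw [FreyInst.kummer_β, FreyInst.kummer_γ]; simpa using hdisc)
    hγ0'
    (by
      rw [FreyInst.kummer_β, FreyInst.kummer_γ]
      rcases hcase with h | ⟨h1, h2, h3⟩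
      · exact Or.inl h
      · exact Or.inr ⟨h1, h2, algebraMap ℚ _ w, σ.commutes w, h3⟩)
    (fun hβ1 hγ1 T' hT0 hT' hγx hx1 =>
      ValEnd.torsion_val _ A.valuation hv2 hβ1 hγ1 hγ0' P.pp hp2 hT0 hT' hγx hx1)
    T hT

end Fermat.Agent.S05
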