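import Fermat.Statements.S02

set_option autoImplicit false
open FreyPackage

namespace Fermat.Agent.S02

theorem gcd_iff (a b : ℤ) : gcd a b = 1 ↔ Int.gcd a b = 1 := by
  rw [← Int.coe_gcd]
  exact_mod_cast Iff.rfl

theorem aux_even_b {a b c : ℤ} (ha : a ≠ 0) (hb : b ≠ 0) (hc : c ≠ 0) {p : ℕ} (pp : p.Prime)
    (hp5 : 5 ≤ p) (H : a ^ p + b ^ p = c ^ p) (hab : Int.gcd a b = 1) (hb2 : (2 : ℤ) ∣ b) :
    Nonempty FreyPackage := by
  have p_odd : Odd p := pp.odd_of_ne_two (by omega)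
  have ha_odd : ¬ (2 : ℤ) ∣ a := by
    intro h2a
    have h : (2 : ℤ) ∣ ((Int.gcd a b : ℕ) : ℤ) := Int.dvd_coe_gcd h2a hb2
    rw [hab] at h
    norm_num at h
  have hcases : a % 4 = 1 ∨ a % 4 = 3 := by omega
  have hb2' : ((b : ℤ) : ZMod 2) = 0 := (ZMod.intCast_zmod_eq_zero_iff_dvd b 2).2 hb2
  rcases hcases with h1 | h3
  · refine ⟨⟨-a, -b, -c, neg_ne_zero.mpr ha, neg_ne_zero.mpr hb, neg_ne_zero.mpr hc, p, pp, hp5,
      ?_, ?_, ?_, ?_⟩⟩
    · rw [p_odd.neg_pow, p_odd.neg_pow, p_odd.neg_pow, ← neg_add, H]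
    · rw [gcd_iff, Int.neg_gcd, Int.gcd_neg]
      exact hab
    · have h : ((-a : ℤ) : ZMod 4) = ((3 : ℤ) : ZMod 4) := by
        rw [ZMod.intCast_eq_intCast_iff']
        push_cast
        omega
      simpa using h
    · simpa using hb2'
  · refine ⟨⟨a, b, c, ha, hb, hc, p, pp, hp5, H, (gcd_iff a b).2 hab, ?_, hb2'⟩⟩
    have h : ((a : ℤ) : ZMod 4) = ((3 : ℤ) : ZMod 4) := by
      rw [ZMod.intCast_eq_intCast_iff']
      push_cast
      omega
    simpa using h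

theorem aux_coprime {a b c : ℤ} (ha : a ≠ 0) (hb : b ≠ 0) (hc : c ≠ 0) {p : ℕ} (pp : p.Prime)
    (hp5 : 5 ≤ p) (H : a ^ p + b ^ p = c ^ p) (hab : Int.gcd a b = 1) :
    Nonempty FreyPackage := by
  have p_odd : Odd p := pp.odd_of_ne_two (by omega)
  have hppos : 0 < p := by omega
  by_cases hb2 : (2 : ℤ) ∣ b
  · exact aux_even_b ha hb hc pp hp5 H hab hb2
  by_cases ha2 : (2 : ℤ) ∣ a
  · exact aux_even_b hb ha hc pp hp5 (by rw [add_comm]; exact H) (by rw [Int.gcd_comm]; exact hab) ha2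
  have hc2 : (2 : ℤ) ∣ c := by
    have hao : Odd a := by rw [Int.odd_iff]; omega
    have hbo : Odd b := by rw [Int.odd_iff]; omega
    have hsum : Even (a ^ p + b ^ p) := (hao.pow).add_odd (hbo.pow)
    rw [H] at hsum
    have hce : Even c := by
      rcases Int.even_or_odd c with h | h
      · exact h
      · exact absurd hsum (Int.not_even_iff_odd.mpr h.pow)
    exact even_iff_two_dvd.mp hce
  have hac : Int.gcd a c = 1 := by
    rw [← gcd_iff, ← FreyPackage.gcdab_eq_gcdac hppos H, gcd_iff, hab]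
  refine aux_even_b (a := a) (b := -c) (c := -b) ha (neg_ne_zero.mpr hc) (neg_ne_zero.mpr hb)
    pp hp5 ?_ ?_ ?_
  · rw [p_odd.neg_pow, p_odd.neg_pow, ← H]; ring
  · rw [Int.gcd_neg]; exact hac
  · simpa using hc2

theorem result (a b c : ℤ) (ha : a ≠ 0) (hb : b ≠ 0) (hc : c ≠ 0) (p : ℕ) (pp : p.Prime) (hp5 : 5 ≤ p) (H : a ^ p + b ^ p = c ^ p) : Nonempty FreyPackage := by
  have hppos : 0 < p := by omega
  have hp0 : p ≠ 0 := hppos.ne'
  have hdpos : 0 < Int.gcd a b := Int.gcd_pos_of_ne_zero_left b ha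
  have hd0 : ((Int.gcd a b : ℕ) : ℤ) ≠ 0 := by exact_mod_cast hdpos.ne'
  obtain ⟨a', ha'⟩ : ((Int.gcd a b : ℕ) : ℤ) ∣ a := Int.gcd_dvd_left a b
  obtain ⟨b', hb'⟩ : ((Int.gcd a b : ℕ) : ℤ) ∣ b := Int.gcd_dvd_right a b
  have hcop : Int.gcd a' b' = 1 := by
    have h := Int.gcd_div_gcd_div_gcd (i := a) (j := b) hdpos
    rw [← h]
    rw [Int.ediv_eq_of_eq_mul_right hd0 ha', Int.ediv_eq_of_eq_mul_right hd0 hb']
  have hdc : ((Int.gcd a b : ℕ) : ℤ) ∣ c := by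
    rw [← Int.pow_dvd_pow_iff hp0, ← H]
    exact dvd_add (pow_dvd_pow_of_dvd (Int.gcd_dvd_left a b) p)
      (pow_dvd_pow_of_dvd (Int.gcd_dvd_right a b) p)
  obtain ⟨c', hc'⟩ := hdc
  have ha'0 : a' ≠ 0 := by
    rintro rfl
    exact ha (by rw [ha', mul_zero])
  have hb'0 : b' ≠ 0 := by
    rintro rfl
    exact hb (by rw [hb', mul_zero])
  have hc'0 : c' ≠ 0 := by
    rintro rfl
    exact hc (by rw [hc', mul_zero])
  have H' : a' ^ p + b' ^ p = c' ^ p := by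
    have hdp : (((Int.gcd a b : ℕ) : ℤ)) ^ p ≠ 0 := pow_ne_zero p hd0
    apply mul_left_cancel₀ hdp
    rw [mul_add, ← mul_pow, ← mul_pow, ← mul_pow, ← ha', ← hb', ← hc', H]
  exact aux_coprime ha'0 hb'0 hc'0 pp hp5 H' hcop

end Fermat.Agent.S02
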