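import Fermat.Statements.S07
import Fermat.Prelude.Thm_ModularForm_sturm_bound_Gamma0
import Fermat.Prelude.Thm_CongruenceSubgroup_one_mem_strictPeriods_Gamma0
-- import your own Fermat.Agent.* helpers here

set_option autoImplicit false
open WeierstrassCurve WeierstrassCurve.Affine WeierstrassCurve.Affine.Point
open CuspForm ModularFormClass UpperHalfPlane
open ModularForm

namespace Fermat.Agent.S07

open scoped MatrixGroups

/-- First column mod 2. -/
def colMap (g : SL(2, ℤ)) : ZMod 2 × ZMod 2 := ((g 0 0 : ZMod 2), (g 1 0 : ZMod 2))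

theorem colMap_eq_imp (g h : SL(2, ℤ)) (hgh : colMap g = colMap h) :
    g⁻¹ * h ∈ CongruenceSubgroup.Gamma0 2 := by
  rw [CongruenceSubgroup.Gamma0_mem]
  simp only [colMap, Prod.mk.injEq] at hgh
  obtain ⟨h1, h2⟩ := hgh
  rw [Matrix.SpecialLinearGroup.coe_mul, Matrix.SpecialLinearGroup.coe_inv,
    Matrix.adjugate_fin_two, Matrix.mul_apply]
  simp only [Fin.sum_univ_two, Matrix.of_apply, Matrix.cons_val_zero, Matrix.cons_val_one,
    Matrix.cons_val', Matrix.empty_val', Matrix.cons_val_fin_one]
  push_cast
  rw [h1, h2]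
  ring

theorem index_Gamma0_two_le : (CongruenceSubgroup.Gamma0 2).index ≤ 4 := by
  have hinj : Function.Injective
      (fun q : SL(2, ℤ) ⧸ CongruenceSubgroup.Gamma0 2 => colMap q.out) := by
    intro q q' hqq
    have hmem := colMap_eq_imp _ _ hqq
    rw [← QuotientGroup.out_eq' q, ← QuotientGroup.out_eq' q']
    exact QuotientGroup.eq.mpr hmem
  have hcard := Nat.card_le_card_of_injective _ hinj
  simpa [Subgroup.index, Nat.card_prod] using hcard

theorem result (f : CuspForm (CongruenceSubgroup.Gamma0 2) 2) : f = 0 := by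
  have hidx := index_Gamma0_two_le
  have hzero : (ModularFormClass.modularForm f :
      ModularForm (CongruenceSubgroup.Gamma0 2) 2) = 0 := by
    apply ModularForm.sturm_bound_Gamma0 2
    intro n hn
    have hn0 : n = 0 := by
      have h12 : ((2 : ℤ) * ((CongruenceSubgroup.Gamma0 2).index : ℤ)).toNat / 12 = 0 := by
        omega
      omega
    subst hn0
    exact CuspFormClass.qExpansion_coeff_zero f one_pos
      (CongruenceSubgroup.one_mem_strictPeriods_Gamma0 2)
  ext z
  have hz := congrArg (fun g : ModularForm _ _ => g z) hzero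
  simpa using hz

end Fermat.Agent.S07
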