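import Fermat.Statements.S13
import Fermat.Agent.S13.OfRational
import Fermat.Agent.S13.TwoDirect

set_option autoImplicit false

open WeierstrassCurve WeierstrassCurve.Affine WeierstrassCurve.Affine.Point
open CuspForm ModularFormClass UpperHalfPlane
open FreyPackage

namespace Fermat.Agent.S13

theorem result (P : FreyPackage)
    (hred : ¬ GaloisRepIsIrreducible (K := AlgebraicClosure ℚ) ℚ P.freyCurve P.p) :
    HasGaloisStableCofixedLine (K := AlgebraicClosure ℚ) ℚ P.freyCurve P.p :=
  result_of_no_rational_torsion P
    (fun T hT hfix => Fermat.Agent.S13.TwoDirect.no_rational_torsion P T hT hfix) hred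

end Fermat.Agent.S13
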