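-- Statement S14: the Ext-vanishing property `ExtVanishingCts p` for every prime `p ≥ 3`.
-- Route (Thaine, CFT-free): a non-split admissible extension gives a split kernel datum, hence an
-- unramified `ω⁻¹`-extension of `ℚ(ζ_p)` split over `p`, hence a singular primary number of
-- `ω²`-type (`S14/ThaineBridge.lean`); there is none: case A by the cyclotomic unit `ξ` and the
-- rank of the `ω²`-part of the units, case B by Thaine's relation and a density argument
-- (`S14/Thaine/*`), `p = 3` directly.
import Fermat.Statements.S14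
import Fermat.Agent.S14.ThaineBridge
import Fermat.Agent.S14.Thaine.Core
import Fermat.Agent.S14.Thaine.CaseA
import Fermat.Agent.S14.Thaine.CaseB
import Fermat.Agent.S14.Thaine.XiStmt
import Fermat.Agent.S14.Thaine.UnitRankStmt
import Fermat.Agent.S14.Thaine.PsiCharStmt
import Fermat.Agent.S14.Thaine.ThaineStmt
import Fermat.Agent.S14.Thaine.MiniChebStmt
import Fermat.Agent.Lib.ClassZetaAbel

set_option autoImplicit false
open ExtCitation

namespace Fermat.Agent.S14

open Fermat.Agent.S14.Thaine in
/-- There is no singular primary number of `ω²`-type in `ℚ(ζ_p)` (Thaine route). -/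
theorem noSingularPrimary (p : ℕ) [Fact p.Prime] :
    Fermat.Agent.S14.Plan.NoSingularPrimaryStmt p :=
  Core.noSingularPrimaryStmt_of_cases p
    (CaseA.caseAStmt p (XiStmt.xiIsUnitStmt p) (XiStmt.xiEigenStmt p) (XiStmt.xiCongStmt p)
      (XiStmt.xiNotPowStmt p) (unitRankStmt p))
    (caseBStmt p (XiStmt.xiIsUnitStmt p) (XiStmt.xiNotPowStmt p) psiCharStmt
      (thaineStmt_closed p) (miniChebStmt Fermat.Agent.Lib.ClassZetaAbel.classZetaStmt))
    CaseA.threeStmt

theorem result {p : ℕ} [Fact p.Prime] (h3 : 3 ≤ p) :
    ExtCitation.ExtVanishingCts p :=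
  Fermat.Agent.S14.ThaineBridge.extVanishingCts_of_noSingularPrimary h3 (noSingularPrimary p)

end Fermat.Agent.S14
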