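-- Statement S23 (CuspForm.hasIntegralStructure_two): `S_2(Γ₀(N))` has an integral structure.
-- Route: `S_k(Γ₀(N))` is stable under every ring endomorphism of `ℂ` acting on `q`-expansions
-- (trace/Lagrange identity with `Δ(N z)`, integrality over level one, analytic integral closure),
-- hence is spanned by forms with rational `q`-expansion; denominators are bounded because the
-- Hecke algebra is a finite `ℤ`-module (S22).
import Fermat.Statements.S23
import Fermat.Agent.S22
import Fermat.Agent.S23.Conj
import Fermat.Agent.S23.Assembly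
import Fermat.Agent.Lib.DeltaNQExp
import Fermat.Agent.Lib.HeckeDenominators

set_option autoImplicit false
open CuspForm

namespace Fermat.Agent.S23

open UpperHalfPlane in
/-- `S_k(Γ₀(N))` is stable under conjugation of `q`-expansions by every ring endomorphism of `ℂ`
(the auxiliary form is `Δ(N z)`). -/
theorem conj_cuspForm (N : ℕ) [NeZero N] (k : ℤ) (σ : ℂ →+* ℂ)
    (f : CuspForm (CongruenceSubgroup.Gamma0 N) k) :
    ∃ g : CuspForm (CongruenceSubgroup.Gamma0 N) k,
      ∀ n, ModularFormClass.qCoeff (⇑g) n = σ (ModularFormClass.qCoeff (⇑f) n) := by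
  obtain ⟨g, ⟨G, rfl⟩, hg⟩ := conj_isCF_of N σ
    (F := Fermat.Agent.Lib.DeltaSlash.deltaN N)
    (IsCF.coe (Fermat.Agent.Lib.DeltaLevelN.deltaNForm N)).isMF
    (Fermat.Agent.Lib.DeltaNQExp.deltaN_qExpansion_int N)
    (Fermat.Agent.Lib.DeltaLevelN.deltaN_slash_ne N) (IsCF.coe f)
  refine ⟨G, fun n => ?_⟩
  simp only [ModularFormClass.qCoeff]
  rw [hg, PowerSeries.coeff_map]

/-- `S_k(Γ₀(N))` is spanned by its forms with rational `q`-expansion, for every weight `k`. -/
theorem rational_span (N : ℕ) [NeZero N] (k : ℤ) :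
    Submodule.span ℂ {f : CuspForm (CongruenceSubgroup.Gamma0 N) k |
      ∀ n, ∃ r : ℚ, ModularFormClass.qCoeff (⇑f) n = (r : ℂ)} = ⊤ :=
  rational_span_of_conj N k (conj_cuspForm N k)

theorem result (N : ℕ) [NeZero N] : CuspForm.HasIntegralStructure N 2 :=
  Fermat.Agent.Lib.HeckeDenominators.hasIntegralStructure_of_rational_span N
    (Fermat.Agent.S22.result N 2 ∅) (rational_span N 2)

end Fermat.Agent.S23
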