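-- Statement S16 (row 15): the index of the Eisenstein ideal in the weight-2 Hecke algebra of
-- prime level p is (p - 1) / gcd(p - 1, 12).
--
-- Assembly (helper16, S16 lead).  With `ev p : HeckeAlg →+* 𝕋` and the Eisenstein character
-- `chiE p : HeckeAlg →+* ℤ` (S16/Plan), the frozen statement is `Goal p`, and
--   `reduce p : UpperBound p → LowerBound p → Goal p`                       (S16/Reduce)
-- * `UpperBound p` (some Hecke polynomial kills S₂(Γ₀(p)) and has Eisenstein value n):
--   trace principle `Tr F = F + p U_p F♭` (`pairAPI`, S16/TracePair) + level-one Sturm bound,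
--   prime by prime (`upperBound_of_pairAPI`, S16/UpperAll; case ℓ = 2 from S16/TSCases).
-- * `LowerBound p` (every Hecke polynomial killing S₂(Γ₀(p)) has Eisenstein value divisible
--   by n): Eichler–Shimura (landed S21) + Hecke operators on Hom(Γ₀(p), ℤ) + the Eisenstein
--   period class + the crossing class + Ogg's root argument (S16/LowerS21/*).
import Fermat.Statements.S16
import Fermat.Agent.S16.Reduce
import Fermat.Agent.S16.EvZero
import Fermat.Agent.S16.UpperAll
import Fermat.Agent.S16.TSCases
import Fermat.Agent.S16.TracePair
import Fermat.Agent.S16.LowerS21.Assembly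
import Fermat.Agent.S16.LowerS21.EisB
import Fermat.Agent.S16.LowerS21.EisEigen
import Fermat.Agent.S16.LowerS21.PrimHecke
import Fermat.Agent.S16.LowerS21.CrossingViaLib
import Fermat.Agent.S16.LowerS21.HeckeHom
import Fermat.Agent.S16.LowerS21.TwoCusp
import Fermat.Agent.S16.LowerS21.Root

set_option autoImplicit false
open ModularCurve CuspForm
open ModularCurve

namespace Fermat.Agent.S16

/-- The upper bound: some Hecke polynomial kills `S₂(Γ₀(p))` and has Eisenstein value
`(p - 1) / gcd(p - 1, 12)`. -/
theorem upperBound_final (p : ℕ) [Fact p.Prime] : UpperBound p :=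
  upperBound_of_pairAPI p (pairAPI p) (fun h => TSCases.noCongOne_two_res p (pairAPI p) h)

/-- The lower bound: every Hecke polynomial killing `S₂(Γ₀(p))` has Eisenstein value divisible
by `(p - 1) / gcd(p - 1, 12)`. -/
theorem lowerBound_final (p : ℕ) [Fact p.Prime] : LowerBound p :=
  LowerS21.lowerBound_of_contracts p (evZero p) (LowerS21.heckeHom p)
    (LowerS21.primHecke_isPrim p) (LowerS21.EisB.eisClass p) (LowerS21.eisEigen p)
    (LowerS21.root p) (LowerS21.crossingStmt_of_crossingHom p) (LowerS21.twoCusp p)

theorem result
    (p : ℕ) [Fact p.Prime] :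
    Nat.card (↥(heckeLatticeAlgebra p ∅) ⧸
        Ideal.map ((latticeRestrictHom p ∅).toRingHom.comp (heckeEvalForms p 2))
          (eisensteinIdeal p)) =
      eisensteinNumerator p :=
  reduce p (upperBound_final p) (lowerBound_final p)

end Fermat.Agent.S16
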