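-- S20: dim S₂(Γ₀(N)) = genusFormula N.
-- Upper bound: Eichler–Shimura injectivity + the bound on parabolic cohomology (`S21/Bounds`).
-- Lower bound: the free basis of `M(Γ₀(N))` over `M(SL₂(ℤ))` (`Lib/GoodBasis`), the class counts at
-- the elliptic points (`Lib/EllipticCount`), the weight sum at the cusps (`Lib/VVCusp`), the dual
-- basis of cusp forms (`Lib/CuspDual`) and the final arithmetic (`Lib/GenusArithLb`).
import Fermat.Statements.S20
import Fermat.Agent.Lib.GoodBasis
import Fermat.Agent.Lib.EllipticCount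
import Fermat.Agent.Lib.GenusArithLb
import Fermat.Agent.Lib.VVCusp
import Fermat.Agent.Lib.CuspDual
import Fermat.Agent.S21.Bounds

set_option autoImplicit false
open CuspForm

namespace Fermat.Agent.S20

theorem result (N : ℕ) [NeZero N] :
    (Module.finrank ℂ (CuspForm (CongruenceSubgroup.Gamma0 N) 2) : ℚ) = ModularCurve.genusFormula N := by
  obtain ⟨n, k, F, hF, hgen, hind, hinv, hcard, heven, h0le, hzero⟩ :=
    Fermat.Agent.Lib.GoodBasis.exists_good_basis' N
  have hle := Fermat.Agent.Lib.CuspDual.weight_le_ten N k F hF hgen hind hinv hcard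
  have hfd := (Fermat.Agent.S21.finrank_cuspForm_le N).1
  have hdim := Fermat.Agent.Lib.CuspDual.natCard_ten_le_finrank N k F hF hgen hind hinv hcard
  refine le_antisymm (Fermat.Agent.S21.finrank_cuspForm_le N).2 ?_
  exact Fermat.Agent.Lib.GenusArithLb.genusFormula_le_finrank_of_one_le' N k heven h0le hle
    hzero.ge hcard
    (Fermat.Agent.Lib.EllipticCount.two_mul_card_four_dvd k F hF hcard (hinv _))
    (Fermat.Agent.Lib.EllipticCount.three_mul_card_six_dvd k F hF hcard (hinv _))
    (Fermat.Agent.Lib.EllipticCount.card_two_mod_six_eq k F hF hcard (hinv _))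
    (Fermat.Agent.Lib.VVCusp.sum_weights N k F hF hgen hinv hcard).ge
    (by rw [← Nat.card_eq_fintype_card]; exact hdim)

end Fermat.Agent.S20
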