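import Fermat.Statements.S28
import Fermat.Agent.S28.Glue
import Fermat.Agent.S28.Char0Degree
import Fermat.Agent.S28.CruxMain
import Fermat.Agent.S28.Reduction

set_option autoImplicit false
open AlgebraicGeometry CategoryTheory CategoryTheory.Limits ModularCurve ModularCurve.IgusaScheme
noncomputable section
set_option autoImplicit false
open ModularCurve ModularCurve.IgusaScheme

namespace Fermat.Agent.S28

set_option maxHeartbeats 4000000 in
set_option synthInstance.maxHeartbeats 400000 in
theorem result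
    (N : ℕ) [NeZero N] (ℓ : ℕ) [Fact ℓ.Prime] (hℓN : ¬ ℓ ∣ N)
    (K : Type) [Field K] [CharP K ℓ] [Algebra ↥(GaloisRep.ratLocalizedAt ℓ) K] :
    IsIntegral ↑(pullback (igusaTo N ℓ)
      (Spec.map (CommRingCat.ofHom (algebraMap ↥(GaloisRep.ratLocalizedAt ℓ) K)))) := by
  have hdeg : Reduction.DegreeLe N := fun n x hx hli => degreeLe N n x hx hli
  have hcrux : Reduction.HasIndepLifts N ℓ := CruxMain.hasIndepLifts N ℓ hℓN
  have hFin := Reduction.isDomain_tensor_chartAlg N ℓ hdeg hcrux K {jFull N} (Or.inl rfl)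
  have hInf := Reduction.isDomain_tensor_chartAlg N ℓ hdeg hcrux K {(jFull N)⁻¹}
    (Or.inr (Or.inl rfl))
  have hMid := Reduction.isDomain_tensor_chartAlg N ℓ hdeg hcrux K {jFull N, (jFull N)⁻¹}
    (Or.inr (Or.inr rfl))
  exact Glue.isIntegral_pullback_igusaTo_of_charts N ℓ K hFin hInf inferInstance

end Fermat.Agent.S28
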