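-- Statement S29 (row 28): a normalised weight-2 eigenform has attached mod-p Galois
-- representations.  Residual route of program P5: `P5.Assembly.s29Stmt_of_open` applied to the
-- three block providers (ResidualBlock, LambdaStmt, CoreAll).
import Fermat.Statements.S29
import Fermat.Agent.P5.Assembly
import Fermat.Agent.P5.ResidualBlock
import Fermat.Agent.P5.LambdaFinal
import Fermat.Agent.P5.CoreTFinal

set_option autoImplicit false
open CuspForm CuspForm.IsNormalizedEigenform

namespace Fermat.Agent.S29

theorem result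
    {N : ℕ} {g : CuspForm (CongruenceSubgroup.Gamma0 N) 2} (hg : g.IsNormalizedEigenform)
    {p : ℕ} (hp : p.Prime) {k : Type} [Field k] [CharP k p]
    (φ : integralClosure ℤ ℂ →+* k) :
    ∃ ρ : ResidualGaloisRep k, ρ.IsAttachedTo g φ ∧
      ∀ ℓ : ℕ, ℓ.Prime → ¬ ℓ ∣ N * p → ρ.IsUnramifiedAt ℓ :=
  Fermat.Agent.P5.Assembly.s29Stmt_of_open Fermat.Agent.P5.Residual.residualBlock
    (fun N _ => Fermat.Agent.P5.Lambda.lambdaStmt N)
    (fun N _ p hp' => by
      first
        | exact Fermat.Agent.P5.CoreT.coreAll N p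
        | exact Fermat.Agent.P5.CoreT.coreAll N p hp') hg hp φ

end Fermat.Agent.S29
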