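/-
Statement S34 (row 33): the Hecke Galois representation `H.ρ` is unipotent on inertia at every
prime `q ≠ p` with `q ∥ N`.

`S34.Assemble.result_of_unipDiv` (the trace argument on `J₀(N)[p^∞]` with weak Chebotarev and the
Hecke shift, as for S31) fed with the divisor form `Plan.UnipDiv A N q` of the unipotence of the
monodromy of `J₀(N)` at `q ∥ N`, for every valuation ring `A` of `Q̄` over `q`:
`S34.Final.unipDiv_of_three` with the two-component reduction `ValAsm.valStmt` (the two Gauss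
valuations of `F_{Mq}` exchanged by the Atkin–Lehner involution), the `τ`-trick
`TauFinal.tauStmt`, and the scaling/characteristic-polynomial inputs `CharInst.hscale`,
`CharInst.charStmt` of the descent.
-/
import Fermat.Statements.S34
import Fermat.Agent.S34.Final
import Fermat.Agent.S34.TauFinal
import Fermat.Agent.S34.ValAsm
import Fermat.Agent.S34.CharInst

set_option autoImplicit false
open IsLocalRing
open CuspForm CuspForm.HeckeGaloisRepDatum

namespace Fermat.Agent.S34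

theorem result
    {𝒪 : Type} [CommRing 𝒪] [IsDomain 𝒪] [IsDiscreteValuationRing 𝒪]
    [IsAdicComplete (maximalIdeal 𝒪) 𝒪] [Finite (ResidueField 𝒪)] [CharZero 𝒪]
    {p : ℕ} (hp : p.Prime) (hp𝒪 : (p : 𝒪) ∈ maximalIdeal 𝒪)
    {N : ℕ} [NeZero N] {S : Finset ℕ} (hpS : p ∈ S) (hNS : ∀ q : ℕ, q.Prime → q ∣ N → q ∈ S)
    {θ : CuspForm.heckeAlgebra N 2 (↑S : Set ℕ) →+* ResidueField 𝒪}
    {T : Type} [CommRing T] [IsLocalRing T] [IsNoetherianRing T]
    [IsAdicComplete (maximalIdeal T) T] [Algebra 𝒪 T] [IsLocalHom (algebraMap 𝒪 T)]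
    [Module.Finite 𝒪 T] [Module.Free 𝒪 T]
    (H : CuspForm.HeckeGaloisRepDatum N (↑S : Set ℕ) 𝒪 θ T)
    (q : ℕ) (hq : q.Prime) (hqp : q ≠ p) (hqN : q ∣ N) (hq2 : ¬ q ^ 2 ∣ N) :
    H.ρ.IsUnipotentOnInertiaAt q := by
  haveI : NeZero q := ⟨hq.ne_zero⟩
  have hL := Fermat.Agent.S34.Assemble.levels_of N q hq hqN hq2
  refine Fermat.Agent.S34.Assemble.result_of_unipDiv hp hp𝒪 hpS hNS H q hq hqp (fun A hA => ?_)
  exact Fermat.Agent.S34.Final.unipDiv_of_three hL hqN A hA
    (Fermat.Agent.S34.ValAsm.valStmt A hL hqN hA)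
    (fun O ρ hS hCR hNode _ => Fermat.Agent.S34.TauFinal.tauStmt hL hqN A hA hS hCR hNode)
    (Fermat.Agent.S34.CharInst.hscale hL A hA) (Fermat.Agent.S34.CharInst.charStmt hL A hA)

end Fermat.Agent.S34
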