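-- Statement S42 (row 40): the attachment property `EigenformResidualAttachmentAt` for the Frey
-- prime at every level.  Derived from S29 by P5 block [G9] (Fermat/Agent/P5/G9/FreyLevel.lean).
import Fermat.Statements.S42
import Fermat.Agent.S29
import Fermat.Agent.P5.G9.FreyLevel

set_option autoImplicit false
open FreyPackage

namespace Fermat.Agent.S42

theorem result (P : FreyPackage) :
    ∀ M : ℕ, 0 < M → P.EigenformResidualAttachmentAt M :=
  Fermat.Agent.P5.G9.s42_of_s29
    (fun {_ _} hg {_} hp {_} _ _ φ => Fermat.Agent.S29.result hg hp φ) P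

end Fermat.Agent.S42
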