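-- Statement S51: a semistable integral Weierstrass curve has irreducible mod-3 or mod-5
-- representation (Wiles' 3-5 lemma).  Assembly of:
--   * T3  `Fermat.Agent.S51.exists_rat_root_of_not_irr3`            (S51/Tors3.lean)
--   * T5  `Fermat.Agent.Lib.Tors5Assembly.exists_rat_pair_of_not_irr5` (Lib/Tors5Assembly.lean)
--   * rational points of 15a1  `Fermat.Agent.Lib.X015Points.points_15a1` (Lib/X015Points.lean)
--   * the bridge `Fermat.Agent.S51.ViaCore.false_of_rat_root_and_pair`  (S51/ViaCore.lean)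
import Fermat.Statements.S51
import Fermat.Agent.S51.Tors3
import Fermat.Agent.S51.ViaCore
import Fermat.Agent.Lib.Tors5Assembly
import Fermat.Agent.Lib.X015Points

set_option autoImplicit false
open WeierstrassCurve WeierstrassCurve.Affine WeierstrassCurve.Affine.Point
open CuspForm ModularFormClass UpperHalfPlane
open WeierstrassCurve

namespace Fermat.Agent.S51

theorem result (W : WeierstrassCurve ℤ) (hΔ : W.Δ ≠ 0) (hW : W.IsSemistableModel) : W.ModRepIsIrreducible 3 ∨ W.ModRepIsIrreducible 5 := by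
  by_contra hcon
  rw [not_or] at hcon
  obtain ⟨h3, h5⟩ := hcon
  obtain ⟨x0, hx0⟩ := Fermat.Agent.S51.exists_rat_root_of_not_irr3 W hΔ h3
  obtain ⟨s, ρ, hρ, h6, h8⟩ := Fermat.Agent.Lib.Tors5Assembly.exists_rat_pair_of_not_irr5 W hΔ h5
  exact Fermat.Agent.S51.ViaCore.false_of_rat_root_and_pair W hΔ hW
    Fermat.Agent.Lib.X015Points.points_15a1 x0 hx0 s ρ hρ h6 h8

end Fermat.Agent.S51
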