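-- Statement S52 (row 46): the 3-5 switch curve.
-- Proof: the explicit family of curves with mod-5 representation matching a given one (`S52/Defs`),
-- its Tate presentation (`S52/Star`), and the assembly `OfStar.result_of_star`
-- (Frobenius quadratic `S52/M2`, five-torsion congruence `S52/Five`, irreducibility at 3 `S52/IrrAlpha`,
-- semistable integral models `S52/Model`).
import Fermat.Statements.S52
import Fermat.Agent.S52.OfStar
import Fermat.Agent.S52.Star

set_option autoImplicit false
open WeierstrassCurve WeierstrassCurve.Affine WeierstrassCurve.Affine.Point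
open CuspForm ModularFormClass UpperHalfPlane
open WeierstrassCurve

namespace Fermat.Agent.S52

theorem result (W : WeierstrassCurve ℤ) (hΔ : W.Δ ≠ 0) (hW : W.IsSemistableModel) (h5 : W.ModRepIsIrreducible 5) : ∃ W' : WeierstrassCurve ℤ, W'.Δ ≠ 0 ∧ W'.IsSemistableModel ∧ W'.ModRepIsIrreducible 3 ∧ ∀ ℓ : ℕ, ℓ.Prime → W.IsGoodPrimeFor ℓ → W'.IsGoodPrimeFor ℓ → ℓ ≠ 5 → (5 : ℤ) ∣ (W'.apOfModel ℓ - W.apOfModel ℓ) := by
  exact OfStar.result_of_star Star.star W hΔ hW h5

end Fermat.Agent.S52
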