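import Fermat.Statements.S53
import Fermat.Agent.S53.Rigid
import Fermat.Agent.S53.RigidBasic
import Fermat.Agent.S53.AbstractRep
import Fermat.Agent.S53.ProLim
import Fermat.Agent.S53.LegitKer
import Fermat.Agent.S53.LegitLattice
import Fermat.Agent.S53.LegitTangent
import Fermat.Agent.S53.Final

set_option autoImplicit false
open GaloisRep

namespace Fermat.Agent.S53

open Fermat.Agent.S53.Defs Fermat.Agent.S53.Rigid

section side

variable {𝒪 : Type} [CommRing 𝒪] [IsLocalRing 𝒪]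
  {ρbar : ResidualGaloisRep (IsLocalRing.ResidueField 𝒪)} (S : Setup ρbar)

theorem NN_ne_top : NN S ≠ ⊤ := RingHom.ker_ne_top _

theorem exists_sub_mem_NN (x : P 𝒪) : ∃ c : 𝒪, x - algebraMap 𝒪 (P 𝒪) c ∈ NN S := by
  obtain ⟨c, hc⟩ := IsLocalRing.residue_surjective
    (ev (𝒪 := 𝒪) (A := IsLocalRing.ResidueField 𝒪) S.D.mat x)
  refine ⟨c, ?_⟩
  rw [NN, RingHom.mem_ker, map_sub, AlgHom.commutes, IsLocalRing.ResidueField.algebraMap_eq, hc,
    sub_self]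

theorem map_maximalIdeal_le_NN :
    (IsLocalRing.maximalIdeal 𝒪).map (algebraMap 𝒪 (P 𝒪)) ≤ NN S := by
  rw [Ideal.map_le_iff_le_comap]
  intro a ha
  rw [Ideal.mem_comap, NN, RingHom.mem_ker, AlgHom.commutes,
    IsLocalRing.ResidueField.algebraMap_eq]
  exact (IsLocalRing.residue_eq_zero_iff a).mpr ha

end side

theorem result
    (𝒪 : Type) [CommRing 𝒪] [IsDomain 𝒪] [IsDiscreteValuationRing 𝒪]
    [IsAdicComplete (IsLocalRing.maximalIdeal 𝒪) 𝒪] [Finite (IsLocalRing.ResidueField 𝒪)]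
    (ρbar : ResidualGaloisRep (IsLocalRing.ResidueField 𝒪))
    (𝒟 : ∀ ⦃A : Type⦄ [CommRing A] [IsLocalRing A] [Algebra 𝒪 A], GaloisRepAdic A → Prop)
    (habs : ρbar.IsAbsolutelyIrreducible)
    (h𝒟 : GaloisRep.IsDeformationCondition 𝒪 𝒟)
    (hbar : 𝒟 (GaloisRepAdic.ofResidualGaloisRep ρbar))
    (hfin : GaloisRep.TangentFinite 𝒪 ρbar 𝒟) :
    Nonempty (GaloisRep.DeformationRingData 𝒪 ρbar 𝒟) := by
  obtain ⟨S⟩ := nonempty_setup ρbar habs
  let algD : Algebra 𝒪 (DualNumber (IsLocalRing.ResidueField 𝒪)) :=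
    ((algebraMap (IsLocalRing.ResidueField 𝒪) (DualNumber (IsLocalRing.ResidueField 𝒪))).comp
      (algebraMap 𝒪 (IsLocalRing.ResidueField 𝒪))).toAlgebra
  have hD : ∀ c : 𝒪, algebraMap 𝒪 (DualNumber (IsLocalRing.ResidueField 𝒪)) c =
      TrivSqZeroExt.inl (IsLocalRing.residue 𝒪 c) := fun c => rfl
  obtain ⟨I, hI, hmin, h0, hanti, hrel⟩ :=
    AbstractRep.exists_min_chain_of_dualNumber_bound (𝒪 := 𝒪) hD (NN S) (NN_ne_top S)
      (exists_sub_mem_NN S) (map_maximalIdeal_le_NN S) (Legit S 𝒟)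
      (LegitKer.legit_NN S 𝒟 h𝒟 hbar)
      (fun I h => LegitKer.Legit.le_NN S 𝒟 h)
      (fun I I' h hle hle' => LegitLattice.Legit.of_le S 𝒟 h𝒟 h hle hle')
      (fun I I' h h' => LegitLattice.Legit.inf S 𝒟 h𝒟 h h')
      (fun I h => by
        obtain ⟨iL, ρ, hρ, hA, hN⟩ := h
        exact LegitKer.finite_of_isArtinianTestAlgebra hA)
      (LegitTangent.legit_tangent_bound S 𝒟 habs h𝒟 hfin)
  obtain ⟨L⟩ := ProLim.nonempty_limData S I h0 hanti (fun n => (hI n).2.2) hrel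
  exact Final.final S 𝒟 habs h𝒟 I (fun n => ⟨(hI n).1, (hI n).2.1⟩) hmin L

end Fermat.Agent.S53
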