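-- Statement S58 (row 52): conductor–level matching.
-- The statement below is byte-identical to the frozen statement WeierstrassCurve.FermatFrozen.S58
-- (Fermat/Statements/S58.lean).  Proof: `Fermat.Agent.S58.Final.result_of` applied to
-- * `Fermat.Agent.S36.Closed.result` (Carayol's theorem S36 without its hypothesis `hres`),
-- * the Frobenius quadratic relations over 𝔽_2 and 𝔽_3 (`Fermat.Agent.S58.FrobQuadSmall`).
import Fermat.Statements.S58
import Fermat.Agent.S58.Final
import Fermat.Agent.S58.FrobQuadSmall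
import Fermat.Agent.S36.Closed

set_option autoImplicit false
set_option autoImplicit false
open WeierstrassCurve

namespace Fermat.Agent.S58

theorem result
    (W : WeierstrassCurve ℤ) (hss : W.IsSemistableModel) (N : ℕ)
    (p : ℕ) [Fact p.Prime] (hp2 : p ≠ 2) (hirr : W.ModRepIsIrreducible p)
    (hp2N : ¬ p ^ 2 ∣ N)
    (hN : W.IsModularModelOfLevel N) (hbad : ∀ ℓ : ℕ, ℓ.Prime → (ℓ : ℤ) ∣ W.Δ → ℓ ∣ N)
    (hN3 : ∀ q : ℕ, q.Prime → ¬ q ^ 3 ∣ N) :
    W.IsModularModelOfLevel W.conductorLevel := by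
  refine Fermat.Agent.S58.Final.result_of ?_ ?_ ?_ W hss N p hp2 hirr hp2N hN hbad hN3
  · intro M _ g hg lam _ S O' _ _ _ _ _ _ hlamO' hlam2 chig hchig iota hlamS hMS
    exact Fermat.Agent.S36.Closed.result hg lam S O' hlamO' hlam2 chig hchig iota hlamS hMS
  · intro E0 K _ _ _ _ hΔ P
    exact Fermat.Agent.S58.FrobQuadSmall.frob_quadratic_two E0 hΔ K P
  · intro E0 K _ _ _ _ hΔ P
    exact Fermat.Agent.S58.FrobQuadSmall.frob_quadratic_three E0 hΔ K P

end Fermat.Agent.S58
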